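import Mathlib
import Fermat.Agent.V.Pres.Defs
import Fermat.Agent.V.FO.Coord

/-!
# Program V (S27), route M, leaf (COORD, table half): `T : V27pTable K δ` ↔ coefficient vector `w`
(prefix `v27ctw_`)

* `v27ctwCoeffs T : V27coC δ → K` the coefficient vector of a table, `v27ctw_tab_coeffs : v27coTab
  (v27ctwCoeffs T) = T.c` (the degree bound `deg_le` forces `natDegree ≤ δ.cdeg`);
* `v27coTab` is injective (`v27ctw_tab_injective`), coefficients `v27ctw_tab_coeff`;
* `v27ctw_isTable T : V27coIsTable T.c`, and conversely `v27ctwOfIsTable : V27coIsTable c → V27pTable K δ`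
  with `.c = c` by `rfl`; in particular `v27ctw_isTable_iff : V27coIsTable (v27coTab w) ↔ ∃ T, T.c = v27coTab w`.
-/

set_option autoImplicit false

noncomputable section

namespace Fermat.Agent.V

open Polynomial

variable {δ : V27pShape} {K : Type*} [Field K]

/-- coefficient `m` of the raw table -/
theorem v27ctw_tab_coeff (w : V27coC δ → K) (i j k : ZMod δ.N) (m : ℕ) :
    (v27coTab w i j k).coeff m = if h : m < δ.cdeg + 1 then w (i, j, k, ⟨m, h⟩) else 0 := by
  unfold v27coTab
  rw [Polynomial.finsetSum_coeff]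
  simp only [Polynomial.coeff_C_mul, Polynomial.coeff_X_pow]
  by_cases h : m < δ.cdeg + 1
  · rw [dif_pos h, Finset.sum_eq_single (⟨m, h⟩ : Fin (δ.cdeg + 1))]
    · simp
    · intro b _ hb
      have : m ≠ (b : ℕ) := fun hm => hb (Fin.ext hm.symm)
      simp [this]
    · intro hn; exact absurd (Finset.mem_univ _) hn
  · rw [dif_neg h]
    apply Finset.sum_eq_zero
    intro b _
    have : m ≠ (b : ℕ) := fun hm => h (hm ▸ b.2)
    simp [this]

theorem v27ctw_tab_coeff_fin (w : V27coC δ → K) (i j k : ZMod δ.N) (m : Fin (δ.cdeg + 1)) :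
    (v27coTab w i j k).coeff (m : ℕ) = w (i, j, k, m) := by
  rw [v27ctw_tab_coeff, dif_pos m.2]

/-- the raw table determines the coefficient vector -/
theorem v27ctw_tab_injective :
    Function.Injective (v27coTab : (V27coC δ → K) → ZMod δ.N → ZMod δ.N → ZMod δ.N → K[X]) := by
  intro w w' h
  funext ⟨i, j, k, m⟩
  rw [← v27ctw_tab_coeff_fin w, ← v27ctw_tab_coeff_fin w', h]

/-- the degree bound of a table: coefficients beyond `δ.cdeg` vanish -/
theorem v27ctw_coeff_eq_zero (T : V27pTable K δ) (i j k : ZMod δ.N) {m : ℕ} (hm : δ.cdeg < m) :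
    (T.c i j k).coeff m = 0 := by
  apply T.deg_le
  have hN : 1 ≤ δ.N := δ.hN
  have h1 : δ.d i ≤ ∑ l : ZMod δ.N, δ.d l :=
    Finset.single_le_sum (f := fun l => δ.d l) (fun _ _ => Nat.zero_le _) (Finset.mem_univ i)
  have h2 : δ.d j ≤ ∑ l : ZMod δ.N, δ.d l :=
    Finset.single_le_sum (f := fun l => δ.d l) (fun _ _ => Nat.zero_le _) (Finset.mem_univ j)
  have h3 : m ≤ δ.N * m := Nat.le_mul_of_pos_left m hN
  unfold V27pShape.cdeg at hm
  omega

/-- the coefficient vector of a table -/
def v27ctwCoeffs (T : V27pTable K δ) : V27coC δ → K :=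
  fun p => (T.c p.1 p.2.1 p.2.2.1).coeff (p.2.2.2 : ℕ)

/-- every table is the raw table of its coefficient vector -/
theorem v27ctw_tab_coeffs (T : V27pTable K δ) : v27coTab (v27ctwCoeffs T) = T.c := by
  funext i j k
  ext m
  rw [v27ctw_tab_coeff]
  by_cases h : m < δ.cdeg + 1
  · rw [dif_pos h]; rfl
  · rw [dif_neg h, v27ctw_coeff_eq_zero T i j k (by omega)]

theorem v27ctw_exists_unique_coeffs (T : V27pTable K δ) :
    ∃! w : V27coC δ → K, v27coTab w = T.c :=
  ⟨v27ctwCoeffs T, v27ctw_tab_coeffs T, fun _ hw =>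
    v27ctw_tab_injective (hw.trans (v27ctw_tab_coeffs T).symm)⟩

/-- a table satisfies the coordinate axioms -/
theorem v27ctw_isTable (T : V27pTable K δ) : V27coIsTable T.c :=
  ⟨T.deg_le, T.comm, T.one, T.assoc, T.lead⟩

/-- the table of a family of structure constants satisfying the coordinate axioms -/
def v27ctwOfIsTable {c : ZMod δ.N → ZMod δ.N → ZMod δ.N → K[X]} (h : V27coIsTable c) :
    V27pTable K δ where
  c := c
  deg_le := h.1
  comm := h.2.1
  one := h.2.2.1
  assoc := h.2.2.2.1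
  lead := h.2.2.2.2

@[simp] theorem v27ctwOfIsTable_c {c : ZMod δ.N → ZMod δ.N → ZMod δ.N → K[X]}
    (h : V27coIsTable c) : (v27ctwOfIsTable h).c = c := rfl

theorem v27ctw_isTable_iff (w : V27coC δ → K) :
    V27coIsTable (v27coTab w) ↔ ∃ T : V27pTable K δ, T.c = v27coTab w :=
  ⟨fun h => ⟨v27ctwOfIsTable h, rfl⟩, fun ⟨T, hT⟩ => hT ▸ v27ctw_isTable T⟩

/-- the table attached to a coefficient vector satisfying the axioms -/
def v27ctwTable (w : V27coC δ → K) (h : V27coIsTable (v27coTab w)) : V27pTable K δ :=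
  v27ctwOfIsTable h

@[simp] theorem v27ctwTable_c (w : V27coC δ → K) (h : V27coIsTable (v27coTab w)) :
    (v27ctwTable w h).c = v27coTab w := rfl

theorem v27ctw_isTable_coeffs (T : V27pTable K δ) : V27coIsTable (v27coTab (v27ctwCoeffs T)) := by
  rw [v27ctw_tab_coeffs]; exact v27ctw_isTable T

/-- round trip: table ↦ coefficients ↦ table -/
theorem v27ctwTable_coeffs (T : V27pTable K δ) :
    (v27ctwTable (v27ctwCoeffs T) (v27ctw_isTable_coeffs T)).c = T.c := by
  rw [v27ctwTable_c, v27ctw_tab_coeffs]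

end Fermat.Agent.V
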