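import Mathlib
import Fermat.Agent.V.FO.Coord
import Fermat.Agent.V.Pres.Ord

/-!
# Program V (S27), half B, leaf (COORD), first half: coefficient boxes versus the table ring

Owner: helper19.  Prefix `v27cb_` / `V27cb`.  Imports helper24's `V/FO/Coord` (the literal
coordinate predicates) and helper26's `V/Pres/{Defs,Ring,Ord}` (the ring `V27pB T` of a table and
its pole order).

The raw objects of `V/FO/Coord` are plain functions `ZMod δ.N → K[X]`; the ring `V27pB T` has the
same underlying type.  This file identifies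

* the raw product / unit / iterated product with the ring operations of `V27pB T`;
* coefficient boxes `a : V27coE δ D → K` with the elements of `V27pB T` all of whose coordinates
  have degree `≤ D` (in particular every element of pole order `≤ D` is a box, uniquely);
* `V27coExact δ m a` with "`v27coEl a ≠ 0` and its pole order is exactly `m`";
* the raw generators `v27coGenX q`, `v27coGenE q i` with `x - x0`, `e i - ε i`.
-/

set_option autoImplicit false

noncomputable section

namespace Fermat.Agent.V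

open Polynomial

variable {K : Type*} [Field K] {δ : V27pShape}

/-! ### (B1) coefficients of a raw element -/

theorem v27cb_coeff_el {D : ℕ} (a : V27coE δ D → K) (j : ZMod δ.N) (r : ℕ) :
    (v27coEl a j).coeff r = if h : r < D + 1 then a (j, ⟨r, h⟩) else 0 := by
  unfold v27coEl
  rw [Polynomial.finsetSum_coeff]
  simp only [coeff_C_mul, coeff_X_pow]
  split_ifs with h
  · rw [Finset.sum_eq_single (⟨r, h⟩ : Fin (D + 1))]
    · simp
    · intro s _ hs
      have : r ≠ (s : ℕ) := fun e => hs (Fin.ext e.symm)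
      simp [this]
    · intro h'; exact absurd (Finset.mem_univ _) h'
  · apply Finset.sum_eq_zero
    intro s _
    have : r ≠ (s : ℕ) := fun e => h (e ▸ s.2)
    simp [this]

theorem v27cb_coeff_el_fin {D : ℕ} (a : V27coE δ D → K) (j : ZMod δ.N) (r : Fin (D + 1)) :
    (v27coEl a j).coeff (r : ℕ) = a (j, r) := by
  rw [v27cb_coeff_el, dif_pos r.2]

theorem v27cb_coeff_el_of_lt {D : ℕ} (a : V27coE δ D → K) (j : ZMod δ.N) {r : ℕ} (h : D < r) :
    (v27coEl a j).coeff r = 0 := by
  rw [v27cb_coeff_el, dif_neg (by omega)]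

theorem v27cb_natDegree_el_le {D : ℕ} (a : V27coE δ D → K) (j : ZMod δ.N) :
    (v27coEl a j).natDegree ≤ D :=
  natDegree_le_iff_coeff_eq_zero.mpr fun _ h => v27cb_coeff_el_of_lt a j h

theorem v27cb_el_injective {D : ℕ} :
    Function.Injective (v27coEl (δ := δ) (K := K) (D := D)) := by
  intro a a' h
  funext ⟨j, r⟩
  rw [← v27cb_coeff_el_fin a j r, ← v27cb_coeff_el_fin a' j r, h]

@[simp] theorem v27cb_el_zero {D : ℕ} : v27coEl (δ := δ) (D := D) (fun _ => (0 : K)) = 0 := by
  funext j
  simp [v27coEl]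

/-! ### (B3) the box of an element -/

/-- the coefficient box of size `D` of a coordinate vector (coefficients beyond `D` are lost) -/
def v27cbBox (D : ℕ) (b : ZMod δ.N → K[X]) : V27coE δ D → K :=
  fun p => (b p.1).coeff (p.2 : ℕ)

theorem v27cbBox_apply (D : ℕ) (b : ZMod δ.N → K[X]) (j : ZMod δ.N) (r : Fin (D + 1)) :
    v27cbBox D b (j, r) = (b j).coeff (r : ℕ) := rfl

theorem v27cb_box_el {D : ℕ} (a : V27coE δ D → K) : v27cbBox D (v27coEl a) = a := by
  funext ⟨j, r⟩
  rw [v27cbBox_apply, v27cb_coeff_el_fin]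

/-- an element all of whose coordinates have degree `≤ D` is the raw element of its box -/
theorem v27cb_el_box_of_natDegree {D : ℕ} (b : ZMod δ.N → K[X])
    (hb : ∀ j, (b j).natDegree ≤ D) : v27coEl (v27cbBox D b) = b := by
  funext j
  ext r
  rw [v27cb_coeff_el]
  split_ifs with h
  · rfl
  · exact (coeff_eq_zero_of_natDegree_lt (lt_of_le_of_lt (hb j) (by omega))).symm

theorem v27cb_exists_box_iff {D : ℕ} (b : ZMod δ.N → K[X]) :
    (∃ a : V27coE δ D → K, v27coEl a = b) ↔ ∀ j, (b j).natDegree ≤ D := by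
  constructor
  · rintro ⟨a, rfl⟩ j
    exact v27cb_natDegree_el_le a j
  · intro h
    exact ⟨v27cbBox D b, v27cb_el_box_of_natDegree b h⟩

/-! ### the ring operations -/

section ring

variable (T : V27pTable K δ)

/-- a coordinate vector, seen as an element of the table ring (the identity map) -/
def v27cbOf (b : ZMod δ.N → K[X]) : V27pB T := b

@[simp] theorem v27cbOf_apply (b : ZMod δ.N → K[X]) (j : ZMod δ.N) : v27cbOf T b j = b j := rfl

theorem v27cb_mul (a b : ZMod δ.N → K[X]) :
    v27cbOf T (v27coMul T.c a b) = v27cbOf T a * v27cbOf T b := rfl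

theorem v27cb_mul' (a b : V27pB T) : v27coMul T.c a b = a * b := rfl

theorem v27cb_one : v27cbOf T (v27coOne (δ := δ) (K := K)) = 1 := rfl

theorem v27cb_one' : (v27coOne (δ := δ) (K := K)) = (1 : V27pB T) := rfl

theorem v27cb_prod (l : List (ZMod δ.N → K[X])) :
    v27cbOf T (v27coProd T.c l) = (l.map (v27cbOf T)).prod := by
  induction l with
  | nil => rfl
  | cons a l ih =>
    rw [List.map_cons, List.prod_cons, ← ih]
    rfl

theorem v27cb_prod' (l : List (V27pB T)) : v27coProd T.c l = l.prod := by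
  induction l with
  | nil => rfl
  | cons a l ih =>
    rw [List.prod_cons, ← ih]
    rfl

theorem v27cb_prod_ofFn {m : ℕ} (u : Fin m → ZMod δ.N → K[X]) :
    v27cbOf T (v27coProd T.c (List.ofFn u)) = ∏ i, v27cbOf T (u i) := by
  rw [v27cb_prod, List.map_ofFn, List.prod_ofFn]
  rfl

theorem v27cb_genX (q : V27coP δ → K) :
    v27cbOf T (v27coGenX q) = V27pB.x - algebraMap K (V27pB T) (q none) := by
  refine V27pB.ext fun j => ?_
  rw [V27pB.sub_apply, V27pB.x, V27pB.algebraMap_poly_apply, V27pB.algebraMap_apply,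
    v27cbOf_apply, v27coGenX]
  split_ifs <;> simp

theorem v27cb_genE (q : V27coP δ → K) (i : ZMod δ.N) :
    v27cbOf T (v27coGenE q i) = V27pB.e i - algebraMap K (V27pB T) (q (some i)) := by
  refine V27pB.ext fun j => ?_
  rw [V27pB.sub_apply, V27pB.e_apply, V27pB.algebraMap_apply, v27cbOf_apply, v27coGenE]

theorem v27cb_isTable : V27coIsTable T.c :=
  ⟨T.deg_le, T.comm, T.one, T.assoc, T.lead⟩

/-- a raw table satisfying the axioms is the table of a `V27pTable` -/
def v27cbTable (c : ZMod δ.N → ZMod δ.N → ZMod δ.N → K[X]) (h : V27coIsTable c) :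
    V27pTable K δ where
  c := c
  deg_le := h.1
  comm := h.2.1
  one := h.2.2.1
  assoc := h.2.2.2.1
  lead := h.2.2.2.2

@[simp] theorem v27cbTable_c (c : ZMod δ.N → ZMod δ.N → ZMod δ.N → K[X]) (h : V27coIsTable c) :
    (v27cbTable c h).c = c := rfl

/-! ### (B2) pole order `≤ m` of a box -/

theorem v27cb_le_el_iff {D : ℕ} (a : V27coE δ D → K) (m : ℕ) :
    V27pLe (v27cbOf T (v27coEl a)) m ↔
      ∀ j (r : Fin (D + 1)), m < δ.N * r + δ.d j → a (j, r) = 0 := by
  constructor
  · intro h j r hr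
    have := h j r hr
    rwa [v27cbOf_apply, v27cb_coeff_el_fin] at this
  · intro h j r hr
    rw [v27cbOf_apply, v27cb_coeff_el]
    split_ifs with hlt
    · exact h j ⟨r, hlt⟩ hr
    · rfl

/-- an element of pole order `≤ D` has all coordinates of degree `≤ D` -/
theorem v27cb_natDegree_le_of_le {b : V27pB T} {D : ℕ} (hb : V27pLe b D) (j : ZMod δ.N) :
    (b j).natDegree ≤ D := by
  refine natDegree_le_iff_coeff_eq_zero.mpr fun r hr => hb j r ?_
  have : r ≤ δ.N * r := Nat.le_mul_of_pos_left r δ.hN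
  omega

/-- every element of pole order `≤ D` is the raw element of its box of size `D` -/
theorem v27cb_el_box {b : V27pB T} {D : ℕ} (hb : V27pLe b D) :
    v27cbOf T (v27coEl (v27cbBox D b)) = b :=
  v27cb_el_box_of_natDegree b (v27cb_natDegree_le_of_le T hb)

theorem v27cb_exists_unique_box {b : V27pB T} {D : ℕ} (hb : V27pLe b D) :
    ∃! a : V27coE δ D → K, v27cbOf T (v27coEl a) = b :=
  ⟨v27cbBox D b, v27cb_el_box T hb, fun a ha =>
    v27cb_el_injective (ha.trans (v27cb_el_box T hb).symm)⟩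

/-- an element of a box of size `D` has pole order `≤ N * D + max d`; crude uniform bound -/
theorem v27cb_le_of_el {D : ℕ} (a : V27coE δ D → K) :
    V27pLe (v27cbOf T (v27coEl a)) (δ.N * D + ∑ j, δ.d j) := by
  rw [v27cb_le_el_iff T a]
  intro j r hr
  exfalso
  have h1 : (r : ℕ) ≤ D := Nat.lt_succ_iff.mp r.2
  have h2 : δ.d j ≤ ∑ j, δ.d j :=
    Finset.single_le_sum (f := fun j => δ.d j) (fun _ _ => Nat.zero_le _) (Finset.mem_univ j)
  have h3 : δ.N * (r : ℕ) ≤ δ.N * D := Nat.mul_le_mul_left _ h1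
  omega

/-! ### (B4) exact pole order -/

theorem v27cb_exact_iff {D : ℕ} (m : ℕ) (a : V27coE δ D → K) :
    V27coExact δ m a ↔
      v27cbOf T (v27coEl a) ≠ 0 ∧ v27pOrd (v27cbOf T (v27coEl a)) = m := by
  constructor
  · rintro ⟨h1, j, r, hjr, hne⟩
    have hle : V27pLe (v27cbOf T (v27coEl a)) m := (v27cb_le_el_iff T a m).mpr h1
    have hc : ((v27cbOf T (v27coEl a)) j).coeff (r : ℕ) ≠ 0 := by
      rwa [v27cbOf_apply, v27cb_coeff_el_fin]
    exact ⟨v27p_ne_zero_of_coeff j r hc, v27pOrd_eq_of hle j r hjr hc⟩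
  · rintro ⟨hne, hord⟩
    have hle : V27pLe (v27cbOf T (v27coEl a)) m := (v27pOrd_le_iff _ _).mp hord.le
    refine ⟨(v27cb_le_el_iff T a m).mp hle, ?_⟩
    obtain ⟨j, hj, htop⟩ := v27p_exists_top hne
    rw [hord] at htop
    have hlc : ((v27cbOf T (v27coEl a)) j).coeff ((v27cbOf T (v27coEl a)) j).natDegree ≠ 0 := by
      rw [coeff_natDegree]
      exact leadingCoeff_ne_zero.mpr hj
    have hlt : ((v27cbOf T (v27coEl a)) j).natDegree < D + 1 := by
      by_contra hge
      apply hlc
      rw [v27cbOf_apply]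
      exact v27cb_coeff_el_of_lt a j (by rw [v27cbOf_apply] at hge; omega)
    refine ⟨j, ⟨_, hlt⟩, htop, ?_⟩
    rw [← v27cb_coeff_el_fin a j ⟨_, hlt⟩]
    exact hlc

theorem v27cb_exact_box_iff {D : ℕ} (m : ℕ) {b : V27pB T} (hb : V27pLe b D) :
    V27coExact δ m (v27cbBox D b) ↔ b ≠ 0 ∧ v27pOrd b = m := by
  rw [v27cb_exact_iff T, v27cb_el_box T hb]

end ring

end Fermat.Agent.V
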