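import Mathlib
import Fermat.Agent.V.Coord.Box
import Fermat.Agent.V.Pts.Inst.Points

/-!
# Program V (S27), half B, leaf (COORD), second half: coordinate predicates versus the table ring

Owner: helper19.  Prefix `v27cb_` / `V27cb`.  Imports `V/Coord/Box` and helper15's
`V/Pts/Inst/Points` (points of `V27pB T` as `K`-algebra homs).

* coordinate points `q : V27coP δ → K` with `V27coPt T.c q`  ≃  `K`-algebra homs `V27pB T →ₐ[K] K`
  (`v27cbHom`, `v27cbPt`, `v27cbPtEquiv`), with `v27coEv q b = φ b`;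
* ring-level versions `V27cbP3`, `V27cbDivAff`, `V27cbTors`, `V27cbEquiv`, `V27cbPhiU`, `V27cbPhiL`
  of helper24's literal coordinate predicates: elements of `V27pB T` all of whose coordinates
  have degree `≤ D` (`V27cbInBox`) instead of boxes, `K`-algebra homs instead of coordinate points,
  `v27pOrd` instead of `V27coExact`; and the equivalences `v27cb_*_iff`.
-/

set_option autoImplicit false

noncomputable section

namespace Fermat.Agent.V

open Polynomial

variable {K : Type*} [Field K] {δ : V27pShape} (T : V27pTable K δ)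

/-! ### points -/

theorem v27cb_pt_iff (q : V27coP δ → K) :
    V27coPt T.c q ↔ V27piPtEq T (q none) (fun j => q (some j)) := Iff.rfl

theorem v27cb_ev (q : V27coP δ → K) (b : ZMod δ.N → K[X]) :
    v27coEv q b = v27piEv T (q none) (fun j => q (some j)) (v27cbOf T b) := rfl

/-- the `K`-algebra hom of a coordinate point -/
def v27cbHom (q : V27coP δ → K) (h : V27coPt T.c q) : V27pB T →ₐ[K] K :=
  v27piPoint (q none) (fun j => q (some j)) h

theorem v27cbHom_apply (q : V27coP δ → K) (h : V27coPt T.c q) (b : V27pB T) :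
    v27cbHom T q h b = v27coEv q b := rfl

theorem v27cbHom_apply_of (q : V27coP δ → K) (h : V27coPt T.c q) (b : ZMod δ.N → K[X]) :
    v27cbHom T q h (v27cbOf T b) = v27coEv q b := rfl

theorem v27cbHom_x (q : V27coP δ → K) (h : V27coPt T.c q) :
    v27cbHom T q h V27pB.x = q none :=
  v27piPoint_x (T := T) (q none) (fun j => q (some j)) h

theorem v27cbHom_e (q : V27coP δ → K) (h : V27coPt T.c q) (j : ZMod δ.N) :
    v27cbHom T q h (V27pB.e j) = q (some j) :=
  v27piPoint_e (T := T) (q none) (fun j => q (some j)) h j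

/-- the coordinates of a `K`-algebra hom -/
def v27cbPt (φ : V27pB T →ₐ[K] K) : V27coP δ → K
  | none => φ V27pB.x
  | some j => φ (V27pB.e j)

@[simp] theorem v27cbPt_none (φ : V27pB T →ₐ[K] K) : v27cbPt T φ none = φ V27pB.x := rfl

@[simp] theorem v27cbPt_some (φ : V27pB T →ₐ[K] K) (j : ZMod δ.N) :
    v27cbPt T φ (some j) = φ (V27pB.e j) := rfl

theorem v27cb_pt_of_hom (φ : V27pB T →ₐ[K] K) : V27coPt T.c (v27cbPt T φ) :=
  v27pi_ptEq_of_point φ

theorem v27cb_ev_pt (φ : V27pB T →ₐ[K] K) (b : V27pB T) : v27coEv (v27cbPt T φ) b = φ b :=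
  (v27pi_point_apply φ b).symm

theorem v27cb_ev_pt_of (φ : V27pB T →ₐ[K] K) (b : ZMod δ.N → K[X]) :
    v27coEv (v27cbPt T φ) b = φ (v27cbOf T b) :=
  (v27pi_point_apply φ (v27cbOf T b)).symm

theorem v27cbHom_pt (φ : V27pB T →ₐ[K] K) :
    v27cbHom T (v27cbPt T φ) (v27cb_pt_of_hom T φ) = φ :=
  (v27pi_point_eq φ).symm

theorem v27cbPt_hom (q : V27coP δ → K) (h : V27coPt T.c q) : v27cbPt T (v27cbHom T q h) = q := by
  funext o
  cases o with
  | none => exact v27cbHom_x T q h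
  | some j => exact v27cbHom_e T q h j

/-- coordinate points of the table `T.c` are the `K`-algebra homs `V27pB T →ₐ[K] K` -/
def v27cbPtEquiv : {q : V27coP δ → K // V27coPt T.c q} ≃ (V27pB T →ₐ[K] K) where
  toFun q := v27cbHom T q.1 q.2
  invFun φ := ⟨v27cbPt T φ, v27cb_pt_of_hom T φ⟩
  left_inv q := Subtype.ext (v27cbPt_hom T q.1 q.2)
  right_inv φ := v27cbHom_pt T φ

/-- a tuple of coordinate points, all satisfying the point equations, is the tuple of
coordinates of a tuple of `K`-algebra homs -/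
theorem v27cb_exists_homs {ι : Type*} (E : ι → V27coP δ → K) (hE : ∀ i, V27coPt T.c (E i)) :
    ∃ φ : ι → V27pB T →ₐ[K] K, E = fun i => v27cbPt T (φ i) :=
  ⟨fun i => v27cbHom T (E i) (hE i), funext fun i => (v27cbPt_hom T (E i) (hE i)).symm⟩

/-! ### boxes in the ring -/

/-- all coordinates have degree `≤ D`: the element is the raw element of a box of size `D` -/
def V27cbInBox (D : ℕ) (b : V27pB T) : Prop := ∀ j, (b j).natDegree ≤ D

variable {T}

theorem v27cb_inBox_of_le {b : V27pB T} {D : ℕ} (hb : V27pLe b D) : V27cbInBox T D b :=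
  v27cb_natDegree_le_of_le T hb

theorem v27cb_inBox_mono {b : V27pB T} {D D' : ℕ} (hb : V27cbInBox T D b) (h : D ≤ D') :
    V27cbInBox T D' b := fun j => (hb j).trans h

theorem v27cb_inBox_el {D : ℕ} (a : V27coE δ D → K) : V27cbInBox T D (v27cbOf T (v27coEl a)) :=
  fun j => v27cb_natDegree_el_le a j

theorem v27cb_el_box_of_inBox {b : V27pB T} {D : ℕ} (hb : V27cbInBox T D b) :
    v27cbOf T (v27coEl (v27cbBox D b)) = b :=
  v27cb_el_box_of_natDegree b hb

theorem v27cb_inBox_iff {b : V27pB T} {D : ℕ} :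
    V27cbInBox T D b ↔ ∃ a : V27coE δ D → K, v27cbOf T (v27coEl a) = b :=
  (v27cb_exists_box_iff b).symm

theorem v27cb_le_of_inBox {b : V27pB T} {D : ℕ} (hb : V27cbInBox T D b) :
    V27pLe b (δ.N * D + ∑ j, δ.d j) := by
  rw [← v27cb_el_box_of_inBox hb]
  exact v27cb_le_of_el T _

variable (T)

/-! ### (P3) -/

/-- ring-level form of `V27coP3 D T.c` -/
def V27cbP3 (D : ℕ) : Prop :=
  ∀ φ : V27pB T →ₐ[K] K, ∃ (u s h0 : V27pB T) (h : ZMod δ.N → V27pB T),
    V27cbInBox T D u ∧ V27cbInBox T D s ∧ V27cbInBox T D h0 ∧ (∀ i, V27cbInBox T D (h i)) ∧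
    φ u = 0 ∧ φ s ≠ 0 ∧
    s * (V27pB.x - algebraMap K (V27pB T) (φ V27pB.x)) = u * h0 ∧
    ∀ i, s * (V27pB.e i - algebraMap K (V27pB T) (φ (V27pB.e i))) = u * h i

theorem v27cb_P3_iff (D : ℕ) : V27coP3 D T.c ↔ V27cbP3 T D := by
  constructor
  · intro H φ
    obtain ⟨u, s, h0, h, hu, hs, hx, he⟩ := H (v27cbPt T φ) (v27cb_pt_of_hom T φ)
    refine ⟨v27cbOf T (v27coEl u), v27cbOf T (v27coEl s), v27cbOf T (v27coEl h0),
      fun i => v27cbOf T (v27coEl (h i)), v27cb_inBox_el u, v27cb_inBox_el s, v27cb_inBox_el h0,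
      fun i => v27cb_inBox_el (h i), ?_, ?_, ?_, ?_⟩
    · rw [← v27cb_ev_pt_of]; exact hu
    · rw [← v27cb_ev_pt_of]; exact hs
    · have := congrArg (v27cbOf T) hx
      rw [v27cb_mul, v27cb_mul, v27cb_genX] at this
      exact this
    · intro i
      have := congrArg (v27cbOf T) (he i)
      rw [v27cb_mul, v27cb_mul, v27cb_genE] at this
      exact this
  · intro H q hq
    obtain ⟨u, s, h0, h, hub, hsb, hh0b, hhb, hu, hs, hx, he⟩ := H (v27cbHom T q hq)
    refine ⟨v27cbBox D u, v27cbBox D s, v27cbBox D h0, fun i => v27cbBox D (h i), ?_, ?_, ?_, ?_⟩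
    · rw [← v27cbHom_apply_of T q hq, v27cb_el_box_of_inBox hub]; exact hu
    · rw [← v27cbHom_apply_of T q hq, v27cb_el_box_of_inBox hsb]; exact hs
    · have hx0 : v27cbHom T q hq V27pB.x = q none := v27cbHom_x T q hq
      rw [hx0] at hx
      show v27cbOf T (v27coMul T.c (v27coEl (v27cbBox D s)) (v27coGenX q)) =
        v27cbOf T (v27coMul T.c (v27coEl (v27cbBox D u)) (v27coEl (v27cbBox D h0)))
      rw [v27cb_mul, v27cb_mul, v27cb_genX, v27cb_el_box_of_inBox hsb, v27cb_el_box_of_inBox hub,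
        v27cb_el_box_of_inBox hh0b]
      exact hx
    · intro i
      have he0 : v27cbHom T q hq (V27pB.e i) = q (some i) := v27cbHom_e T q hq i
      have hei := he i
      rw [he0] at hei
      show v27cbOf T (v27coMul T.c (v27coEl (v27cbBox D s)) (v27coGenE q i)) =
        v27cbOf T (v27coMul T.c (v27coEl (v27cbBox D u)) (v27coEl (v27cbBox D (h i))))
      rw [v27cb_mul, v27cb_mul, v27cb_genE, v27cb_el_box_of_inBox hsb, v27cb_el_box_of_inBox hub,
        v27cb_el_box_of_inBox (hhb i)]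
      exact hei

/-- the ring-level (P3) gives helper15's generator form of (P3) (hence Dedekind) -/
theorem v27cb_piP3_of_P3 {D : ℕ} (H : V27cbP3 T D) : V27piP3 T := by
  intro φ
  obtain ⟨u, s, h0, h, -, -, -, -, hu, hs, hx, he⟩ := H φ
  exact ⟨u, s, hu, hs, ⟨h0, hx⟩, fun j => ⟨h j, he j⟩⟩

/-! ### DivAff -/

/-- ring-level form of `V27coDivAff D T.c f q` -/
def V27cbDivAff (D : ℕ) (f : V27pB T) {m : ℕ} (q : Fin m → V27pB T →ₐ[K] K) : Prop :=
  ∃ (u : Fin m → V27pB T) (s h : V27pB T),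
    (∀ i, V27cbInBox T D (u i)) ∧ V27cbInBox T D s ∧ V27cbInBox T D h ∧
    (∀ i, q i (u i) = 0) ∧ (∀ i, q i s ≠ 0) ∧ s * f = h * ∏ i, u i

theorem v27cb_divAff_iff (D : ℕ) {Df m : ℕ} (f : V27coE δ Df → K)
    (q : Fin m → V27pB T →ₐ[K] K) :
    V27coDivAff D T.c f (fun i => v27cbPt T (q i)) ↔
      V27cbDivAff T D (v27cbOf T (v27coEl f)) q := by
  constructor
  · rintro ⟨u, s, h, hu, hs, heq⟩
    refine ⟨fun i => v27cbOf T (v27coEl (u i)), v27cbOf T (v27coEl s), v27cbOf T (v27coEl h),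
      fun i => v27cb_inBox_el (u i), v27cb_inBox_el s, v27cb_inBox_el h, ?_, ?_, ?_⟩
    · intro i; rw [← v27cb_ev_pt_of]; exact hu i
    · intro i; rw [← v27cb_ev_pt_of]; exact hs i
    · have := congrArg (v27cbOf T) heq
      rw [v27cb_mul, v27cb_mul, v27cb_prod_ofFn] at this
      exact this
  · rintro ⟨u, s, h, hub, hsb, hhb, hu, hs, heq⟩
    refine ⟨fun i => v27cbBox D (u i), v27cbBox D s, v27cbBox D h, ?_, ?_, ?_⟩
    · intro i
      rw [v27cb_ev_pt_of, v27cb_el_box_of_inBox (hub i)]; exact hu i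
    · intro i
      rw [v27cb_ev_pt_of, v27cb_el_box_of_inBox hsb]; exact hs i
    · show v27cbOf T (v27coMul T.c (v27coEl (v27cbBox D s)) (v27coEl f)) =
        v27cbOf T (v27coMul T.c (v27coEl (v27cbBox D h))
          (v27coProd T.c (List.ofFn fun i => v27coEl (v27cbBox D (u i)))))
      rw [v27cb_mul, v27cb_mul, v27cb_prod_ofFn, v27cb_el_box_of_inBox hsb,
        v27cb_el_box_of_inBox hhb]
      simp only [v27cb_el_box_of_inBox (hub _)]
      exact heq

/-- the same for an element of pole order `≤ Df` in place of a box -/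
theorem v27cb_divAff_box_iff (D : ℕ) {Df m : ℕ} {f : V27pB T} (hf : V27cbInBox T Df f)
    (q : Fin m → V27pB T →ₐ[K] K) :
    V27coDivAff D T.c (v27cbBox Df f) (fun i => v27cbPt T (q i)) ↔ V27cbDivAff T D f q := by
  rw [v27cb_divAff_iff, v27cb_el_box_of_inBox hf]

/-! ### Tors -/

/-- ring-level form of `V27coTors D n T.c E` -/
def V27cbTors (D n : ℕ) {g' : ℕ} (E : Fin g' → V27pB T →ₐ[K] K) : Prop :=
  ∃ f : V27pB T, f ≠ 0 ∧ v27pOrd f = n * g' ∧
    V27cbDivAff T D f (fun k : Fin (n * g') => E (finProdFinEquiv.symm k).2)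

theorem v27cb_tors_iff (D n : ℕ) {g' : ℕ} (E : Fin g' → V27pB T →ₐ[K] K) :
    V27coTors D n T.c (fun k => v27cbPt T (E k)) ↔ V27cbTors T D n E := by
  constructor
  · rintro ⟨f, hex, hdiv⟩
    obtain ⟨hne, hord⟩ := (v27cb_exact_iff T _ f).mp hex
    exact ⟨_, hne, hord, (v27cb_divAff_iff T D f _).mp hdiv⟩
  · rintro ⟨f, hne, hord, hdiv⟩
    have hle : V27pLe f (n * g') := (v27pOrd_le_iff f _).mp hord.le
    refine ⟨v27cbBox (n * g') f, (v27cb_exact_box_iff T _ hle).mpr ⟨hne, hord⟩, ?_⟩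
    exact (v27cb_divAff_box_iff T D (v27cb_inBox_of_le hle) _).mpr hdiv

/-! ### Equiv -/

theorem v27cb_append_pt {g' r : ℕ} (E : Fin g' → V27pB T →ₐ[K] K)
    (G : Fin r → V27pB T →ₐ[K] K) :
    Fin.append (fun k => v27cbPt T (E k)) (fun k => v27cbPt T (G k)) =
      fun i => v27cbPt T (Fin.append E G i) := by
  funext i
  refine Fin.addCases (fun k => ?_) (fun k => ?_) i
  · rw [Fin.append_left, Fin.append_left]
  · rw [Fin.append_right, Fin.append_right]

/-- ring-level form of `V27coEquiv D r T.c E E'` -/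
def V27cbEquiv (D r : ℕ) {g' : ℕ} (E E' : Fin g' → V27pB T →ₐ[K] K) : Prop :=
  ∃ (G : Fin r → V27pB T →ₐ[K] K) (b1 b2 : V27pB T),
    (b1 ≠ 0 ∧ v27pOrd b1 = g' + r) ∧ (b2 ≠ 0 ∧ v27pOrd b2 = g' + r) ∧
    V27cbDivAff T D b1 (Fin.append E G) ∧ V27cbDivAff T D b2 (Fin.append E' G)

theorem v27cb_equiv_iff (D r : ℕ) {g' : ℕ} (E E' : Fin g' → V27pB T →ₐ[K] K) :
    V27coEquiv D r T.c (fun k => v27cbPt T (E k)) (fun k => v27cbPt T (E' k)) ↔
      V27cbEquiv T D r E E' := by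
  constructor
  · rintro ⟨G, b1, b2, hG, hb1, hb2, hd1, hd2⟩
    obtain ⟨G', rfl⟩ := v27cb_exists_homs T G hG
    rw [v27cb_append_pt] at hd1 hd2
    exact ⟨G', _, _, (v27cb_exact_iff T _ b1).mp hb1, (v27cb_exact_iff T _ b2).mp hb2,
      (v27cb_divAff_iff T D b1 _).mp hd1, (v27cb_divAff_iff T D b2 _).mp hd2⟩
  · rintro ⟨G, b1, b2, ⟨hne1, hord1⟩, ⟨hne2, hord2⟩, hd1, hd2⟩
    have hle1 : V27pLe b1 (g' + r) := (v27pOrd_le_iff b1 _).mp hord1.le
    have hle2 : V27pLe b2 (g' + r) := (v27pOrd_le_iff b2 _).mp hord2.le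
    refine ⟨fun k => v27cbPt T (G k), v27cbBox (g' + r) b1, v27cbBox (g' + r) b2,
      fun i => v27cb_pt_of_hom T (G i), (v27cb_exact_box_iff T _ hle1).mpr ⟨hne1, hord1⟩,
      (v27cb_exact_box_iff T _ hle2).mpr ⟨hne2, hord2⟩, ?_, ?_⟩
    · rw [v27cb_append_pt]
      exact (v27cb_divAff_box_iff T D (v27cb_inBox_of_le hle1) _).mpr hd1
    · rw [v27cb_append_pt]
      exact (v27cb_divAff_box_iff T D (v27cb_inBox_of_le hle2) _).mpr hd2

/-! ### the two sentences -/

/-- ring-level form of `V27coPhiU` (without the table axioms, which are carried by `T`) -/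
def V27cbPhiU (D r n g' M : ℕ) : Prop :=
  V27cbP3 T D ∧ ∃ E : Fin (M + 1) → Fin g' → V27pB T →ₐ[K] K,
    (∀ i, V27cbTors T D n (E i)) ∧ ∀ i i', i ≠ i' → ¬ V27cbEquiv T D r (E i) (E i')

/-- ring-level form of `V27coPhiL` -/
def V27cbPhiL (D r n g' M : ℕ) : Prop :=
  V27cbP3 T D ∧ ∃ E : Fin (M - 1) → Fin g' → V27pB T →ₐ[K] K,
    (∀ i, V27cbTors T D n (E i)) ∧
    ∀ E0 : Fin g' → V27pB T →ₐ[K] K, V27cbTors T D n E0 → ∃ i, V27cbEquiv T D r E0 (E i)

theorem v27cb_exists_homs₂ {ι κ : Type*} (E : ι → κ → V27coP δ → K)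
    (hE : ∀ i k, V27coPt T.c (E i k)) :
    ∃ φ : ι → κ → V27pB T →ₐ[K] K, E = fun i k => v27cbPt T (φ i k) :=
  ⟨fun i k => v27cbHom T (E i k) (hE i k),
    funext fun i => funext fun k => (v27cbPt_hom T (E i k) (hE i k)).symm⟩

theorem v27cb_phiU_iff (D r n g' M : ℕ) (w : V27coC δ → K) (hw : v27coTab w = T.c) :
    V27coPhiU δ D r n g' M w ↔ V27cbPhiU T D r n g' M := by
  unfold V27coPhiU V27cbPhiU
  rw [hw]
  constructor
  · rintro ⟨-, hP3, E, hPt, hT, hne⟩
    obtain ⟨E', rfl⟩ := v27cb_exists_homs₂ T E hPt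
    refine ⟨(v27cb_P3_iff T D).mp hP3, E', fun i => (v27cb_tors_iff T D n (E' i)).mp (hT i),
      fun i i' hii' h => hne i i' hii' ((v27cb_equiv_iff T D r (E' i) (E' i')).mpr h)⟩
  · rintro ⟨hP3, E, hT, hne⟩
    refine ⟨v27cb_isTable T, (v27cb_P3_iff T D).mpr hP3, fun i k => v27cbPt T (E i k),
      fun i k => v27cb_pt_of_hom T (E i k), fun i => (v27cb_tors_iff T D n (E i)).mpr (hT i),
      fun i i' hii' h => hne i i' hii' ((v27cb_equiv_iff T D r (E i) (E i')).mp h)⟩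

theorem v27cb_phiL_iff (D r n g' M : ℕ) (w : V27coC δ → K) (hw : v27coTab w = T.c) :
    V27coPhiL δ D r n g' M w ↔ V27cbPhiL T D r n g' M := by
  unfold V27coPhiL V27cbPhiL
  rw [hw]
  constructor
  · rintro ⟨-, hP3, E, hPt, hT, hcov⟩
    obtain ⟨E', rfl⟩ := v27cb_exists_homs₂ T E hPt
    refine ⟨(v27cb_P3_iff T D).mp hP3, E', fun i => (v27cb_tors_iff T D n (E' i)).mp (hT i),
      fun E0 hE0 => ?_⟩
    obtain ⟨i, hi⟩ := hcov (fun k => v27cbPt T (E0 k)) (fun k => v27cb_pt_of_hom T (E0 k))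
      ((v27cb_tors_iff T D n E0).mpr hE0)
    exact ⟨i, (v27cb_equiv_iff T D r E0 (E' i)).mp hi⟩
  · rintro ⟨hP3, E, hT, hcov⟩
    refine ⟨v27cb_isTable T, (v27cb_P3_iff T D).mpr hP3, fun i k => v27cbPt T (E i k),
      fun i k => v27cb_pt_of_hom T (E i k), fun i => (v27cb_tors_iff T D n (E i)).mpr (hT i),
      fun E0 hPt0 hT0 => ?_⟩
    obtain ⟨E0', rfl⟩ := v27cb_exists_homs T E0 hPt0
    obtain ⟨i, hi⟩ := hcov E0' ((v27cb_tors_iff T D n E0').mp hT0)
    exact ⟨i, (v27cb_equiv_iff T D r E0' (E i)).mpr hi⟩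

/-- `V27coPhiU` / `V27coPhiL` without a table given in advance: the table is built from `w`. -/
theorem v27cb_phiU_iff' (D r n g' M : ℕ) (w : V27coC δ → K) :
    V27coPhiU δ D r n g' M w ↔
      ∃ T : V27pTable K δ, T.c = v27coTab w ∧ V27cbPhiU T D r n g' M := by
  constructor
  · intro h
    exact ⟨v27cbTable _ h.1, rfl, (v27cb_phiU_iff (v27cbTable _ h.1) D r n g' M w rfl).mp h⟩
  · rintro ⟨T, hT, h⟩
    exact (v27cb_phiU_iff T D r n g' M w hT.symm).mpr h

theorem v27cb_phiL_iff' (D r n g' M : ℕ) (w : V27coC δ → K) :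
    V27coPhiL δ D r n g' M w ↔
      ∃ T : V27pTable K δ, T.c = v27coTab w ∧ V27cbPhiL T D r n g' M := by
  constructor
  · intro h
    exact ⟨v27cbTable _ h.1, rfl, (v27cb_phiL_iff (v27cbTable _ h.1) D r n g' M w rfl).mp h⟩
  · rintro ⟨T, hT, h⟩
    exact (v27cb_phiL_iff T D r n g' M w hT.symm).mpr h

end Fermat.Agent.V
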